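import Fermat.Agent.GaloisReps.Attach

/-!
# The determinant at elements acting on roots of unity as a natural number
-/

set_option autoImplicit false

noncomputable section

namespace Fermat.Agent.GaloisReps.HeckeGaloisModel

variable {N p : ℕ} [NeZero N] [Fact p.Prime] (D : HeckeGaloisModel N p)
  {O : Type} [CommRing O] [IsDomain O] [IsDiscreteValuationRing O] [CharZero O]
  (ι : ℤ_[p] →+* O) (θ : FullHecke N →+* O)

/-- An element acting on the `p ^ n`-th roots of unity by the exponent `a` has determinant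
congruent to `a` modulo `p ^ n`. -/
theorem det_eigenAction_congr (hp : (p : O) ∈ IsLocalRing.maximalIdeal O) {s : AbsGal} {q n : ℕ}
    (hs : ∀ ζ : AlgebraicClosure ℚ, ζ ^ (p ^ n) = 1 → s ζ = ζ ^ q) :
    (p : O) ^ n ∣ LinearMap.det (D.eigenAction ι θ s) - (q : O) := by
  obtain ⟨c, hc2, hc⟩ := D.exists_conj
  have hcn := D.not_isScalarLike_conj ι θ hc
  have : NeZero (p ^ n) := ⟨pow_ne_zero _ (Fact.out : p.Prime).ne_zero⟩
  obtain ⟨ζ, hζ⟩ := exists_primitiveRoot (p ^ n)
  suffices h : ∃ a : ℕ, (p : O) ^ n ∣ LinearMap.det (D.eigenAction ι θ s) - a ∧ s ζ = ζ ^ a by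
    obtain ⟨a, ha, hsa⟩ := h
    rw [hs ζ hζ.pow_eq_one] at hsa
    have h2 := (hζ.isOfFinOrder (NeZero.ne _)).pow_eq_pow_iff_modEq.mp hsa
    rw [← hζ.eq_orderOf, Nat.modEq_iff_dvd] at h2
    have := map_dvd (Int.castRingHom O) h2
    simp only [eq_intCast, Int.cast_natCast, Int.cast_sub, Nat.cast_pow, Int.cast_pow] at this
    have h3 := dvd_add ha this
    rwa [sub_add_sub_cancel] at h3
  by_cases hscal : IsScalarLike (D.eigenAction ι θ s)
  · have hcsn : ¬ IsScalarLike (D.eigenAction ι θ (c * s)) := by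
      rintro ⟨a, b, ha, hab⟩
      obtain ⟨a', b', ha', hab'⟩ := hscal
      refine hcn ⟨a * b', a' * b, mul_ne_zero ha ?_, fun v => ?_⟩
      · intro hb'
        have hinj : Function.Injective (D.eigenAction ι θ s) := by
          refine Function.LeftInverse.injective (g := D.eigenAction ι θ s⁻¹) fun x => ?_
          rw [← Module.End.mul_apply, ← map_mul, inv_mul_cancel, map_one, Module.End.one_apply]
        have h0 : ∀ x : eigenspace D.hecke θ, x = 0 := fun x => by
          have := hab' x
          rw [hb', zero_smul] at this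
          exact hinj ((smul_eq_zero.mp this).resolve_left ha' |>.trans (map_zero _).symm)
        exact (D.eigenBasis θ).ne_zero 0 (h0 _)
      · have h1 : D.eigenAction ι θ c (a' • D.eigenAction ι θ s v) =
            D.eigenAction ι θ c (b' • v) := by rw [hab' v]
        rw [map_smul, map_smul, ← Module.End.mul_apply, ← map_mul] at h1
        have h2 := congrArg (fun x => a • x) h1
        simp only [smul_comm a a', hab v, smul_smul] at h2
        exact h2.symm
    obtain ⟨a, ha, haζ⟩ :=
      D.det_cyclotomic_of_not_scalarLike ι θ frobeniusDensity hp hcn n hζ.pow_eq_one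
    obtain ⟨b, hb, hbζ⟩ :=
      D.det_cyclotomic_of_not_scalarLike ι θ frobeniusDensity hp hcsn n hζ.pow_eq_one
    refine ⟨a * b, ?_, ?_⟩
    · have hdet : LinearMap.det (D.eigenAction ι θ s) =
          LinearMap.det (D.eigenAction ι θ c) * LinearMap.det (D.eigenAction ι θ (c * s)) := by
        rw [← map_mul, ← map_mul, ← mul_assoc, hc2, one_mul]
      obtain ⟨x, hx⟩ := ha
      obtain ⟨y, hy⟩ := hb
      refine ⟨x * LinearMap.det (D.eigenAction ι θ (c * s)) + (a : O) * y, ?_⟩
      push_cast
      linear_combination hdet + LinearMap.det (D.eigenAction ι θ (c * s)) * hx + (a : O) * hy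
    · calc s ζ = c ((c * s) ζ) := by rw [← AlgEquiv.mul_apply, ← mul_assoc, hc2, one_mul]
        _ = ζ ^ (a * b) := by rw [hbζ, map_pow, haζ, ← pow_mul]
  · exact D.det_cyclotomic_of_not_scalarLike ι θ frobeniusDensity hp hscal n hζ.pow_eq_one

/-- An element raising all `p`-power roots of unity to the power `q` has determinant `q`. -/
theorem det_eigenAction_of_roots (hp : (p : O) ∈ IsLocalRing.maximalIdeal O) {s : AbsGal} {q : ℕ}
    (hs : ∀ (n : ℕ) (ζ : AlgebraicClosure ℚ), ζ ^ (p ^ n) = 1 → s ζ = ζ ^ q) :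
    LinearMap.det (D.eigenAction ι θ s) = (q : O) :=
  sub_eq_zero.mp (eq_zero_of_forall_pow_dvd hp fun n => D.det_eigenAction_congr ι θ hp (hs n))

end Fermat.Agent.GaloisReps.HeckeGaloisModel
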