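import Fermat.Agent.NewformLocal.Oldness
import Fermat.Agent.NewformLocal.Plane
import Fermat.Agent.NewformLocal.Det
import Mathlib.NumberTheory.ModularForms.Bounds

/-!
# Unipotent inertia on the model, descent of kernels and compatible characters
-/

set_option autoImplicit false

noncomputable section

open Polynomial CongruenceSubgroup ModularFormClass

namespace Fermat.Agent.NewformLocal

open GaloisReps (AbsGal FullHecke HeckeGaloisModel matIn toFull)

variable {N p : ℕ} [NeZero N] [Fact p.Prime]

/-- Inertia at `q` acts unipotently on the model. -/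
def UnipotentAt (D : HeckeGaloisModel N p) (q : ℕ) : Prop :=
  ∀ A : ValuationSubring (AlgebraicClosure ℚ), A.LiesOverPrime q →
    ∀ τ ∈ A.inertiaSubgroupIn ℚ, (D.gal τ - 1) ^ 2 = 0

section Descent

variable {O : Type} [CommRing O] [IsDomain O] [CharZero O] (ι : ℤ_[p] →+* O) {d : ℕ}

/-- A matrix over `ℤ_[p]` killing the vectors fixed by a family kills them after extension of
scalars to a domain of characteristic zero. -/
theorem mulVec_eq_zero_of_fixed (G : Set (Matrix (Fin d) (Fin d) ℤ_[p]))
    (X : Matrix (Fin d) (Fin d) ℤ_[p])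
    (hX : ∀ w : Fin d → ℤ_[p], (∀ g ∈ G, g.mulVec w = w) → X.mulVec w = 0)
    {v : Fin d → O} (hv : ∀ g ∈ G, (g.map ι).mulVec v = v) : (X.map ι).mulVec v = 0 := by
  classical
  let : Algebra ℤ_[p] O := ι.toAlgebra
  have hinj : Function.Injective (algebraMap ℤ_[p] O) := by
    refine (injective_iff_map_eq_zero _).2 fun a ha => by_contra fun h0 => ?_
    rw [PadicInt.unitCoeff_spec h0, map_mul, map_pow, map_natCast] at ha
    rcases mul_eq_zero.1 ha with h | h
    · exact ((PadicInt.unitCoeff h0).isUnit.map (algebraMap ℤ_[p] O)).ne_zero h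
    · exact pow_ne_zero _ (Nat.cast_ne_zero.2 (Fact.out : p.Prime).ne_zero) h
  have : Module.IsTorsionFree ℤ_[p] O := Module.isTorsionFree_iff_algebraMap_injective.2 hinj
  let S : Submodule ℤ_[p] O := Submodule.span ℤ_[p] (Set.range v)
  have : Module.Finite ℤ_[p] S := Module.Finite.span_of_finite ℤ_[p] (Set.finite_range v)
  have : Module.Free ℤ_[p] S := Module.free_of_finite_type_torsion_free'
  let b := Module.finBasis ℤ_[p] S
  let u : Fin d → S := fun i => ⟨v i, Submodule.subset_span ⟨i, rfl⟩⟩
  let w : Fin (Module.finrank ℤ_[p] S) → Fin d → ℤ_[p] := fun k i => b.repr (u i) k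
  have hw : ∀ k, ∀ g ∈ G, g.mulVec (w k) = w k := by
    intro k g hg
    funext i
    have e : ∑ j, g i j • u j = u i := by
      refine Subtype.ext ?_
      rw [Submodule.coe_sum]
      refine Eq.trans (Finset.sum_congr rfl fun j _ => ?_) (congrFun (hv g hg) i)
      rw [Submodule.coe_smul, Algebra.smul_def]
      rfl
    have h := congrArg (fun x => b.repr x k) e
    simp only [map_sum, map_smul, Finsupp.coe_finsetSum, Finset.sum_apply, Finsupp.smul_apply,
      smul_eq_mul] at h
    exact h
  funext i
  have e : ∑ j, X i j • u j = 0 := by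
    refine b.repr.injective (Finsupp.ext fun k => ?_)
    simp only [map_sum, map_smul, Finsupp.coe_finsetSum, Finset.sum_apply, Finsupp.smul_apply,
      smul_eq_mul, map_zero, Finsupp.coe_zero, Pi.zero_apply]
    exact congrFun (hX (w k) (hw k)) i
  have h := congrArg Subtype.val e
  rw [Submodule.coe_sum] at h
  show ∑ j, ι (X i j) * v j = 0
  refine Eq.trans (Finset.sum_congr rfl fun j _ => ?_) h
  rw [Submodule.coe_smul, Algebra.smul_def]
  rfl

end Descent

theorem eigenChar_toFull {g : CuspForm (Gamma0 N) 2} (hg : g.IsNormalizedEigenform) (S : Set ℕ)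
    (t : CuspForm.heckeAlgebra N 2 S) :
    ConductorLevel.eigenChar hg ∅ (toFull S t) = ConductorLevel.eigenChar hg S t := by
  simp only [ConductorLevel.eigenChar, RingHom.coe_mk, MonoidHom.coe_mk, OneHom.coe_mk,
    GaloisReps.toFull, Subalgebra.coe_inclusion]

/-- A character extending `f ∘ χ` whose kernel is contained in that of `χ₀`. -/
theorem exists_compatible_char {A B : Type} [CommRing A] [CommRing B] [Module.Finite ℤ B]
    (i : A →+* B) (χ : A →+* ℂ) (χ₀ : B →+* ℂ) (hcomp : ∀ a, χ a = χ₀ (i a))
    {K : Type} [Field K] [IsAlgClosed K] [CharZero K] (f : χ.range →+* K) :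
    ∃ θ : B →+* K, (∀ a, θ (i a) = f (χ.rangeRestrict a)) ∧ ∀ b, θ b = 0 → χ₀ b = 0 := by
  have hfin : Module.Finite ℤ χ₀.range := Module.Finite.of_surjective
    χ₀.rangeRestrict.toAddMonoidHom.toIntLinearMap χ₀.rangeRestrict_surjective
  have hle : χ.range ≤ χ₀.range := by
    rintro _ ⟨a, rfl⟩
    exact ⟨i a, (hcomp a).symm⟩
  let incl : χ.range →+* χ₀.range := Subring.inclusion hle
  have hincl : Function.Injective incl := fun a b h =>
    Subtype.ext (congrArg (fun x : χ₀.range => (x : ℂ)) h)
  obtain ⟨e, he⟩ := GaloisReps.exists_extend_of_int incl hincl f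
  have heinj : Function.Injective e := by
    rw [RingHom.injective_iff_ker_eq_bot]
    refine Ideal.eq_bot_of_comap_eq_bot (R := ℤ) ?_
    rw [RingHom.comap_ker, RingHom.ext_int (e.comp (algebraMap ℤ _)) (Int.castRingHom K),
      ← RingHom.injective_iff_ker_eq_bot]
    exact Int.cast_injective
  refine ⟨e.comp χ₀.rangeRestrict, fun a => ?_, fun b hb => ?_⟩
  · rw [← he (χ.rangeRestrict a)]
    exact congrArg e (Subtype.ext (hcomp a).symm)
  · rw [RingHom.comp_apply, map_eq_zero_iff e heinj] at hb
    exact congrArg Subtype.val hb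

end Fermat.Agent.NewformLocal
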