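import Fermat.Agent.GaloisReps.Characters
import Fermat.Agent.ConductorLevel.Eigen
import Fermat.Agent.IntegralStructure.Duality
import Fermat.Agent.Newforms.Newform

/-!
# Hecke operators which kill the forms of lower level but not a newform
-/

set_option autoImplicit false

noncomputable section

open CongruenceSubgroup ModularFormClass

namespace Fermat.Agent.NewformLocal

/-- The set of prime divisors of `N`, as a set of excluded primes. -/
abbrev levelPrimes (N : ℕ) : Set ℕ := {p | p ∣ N}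

/-- Every character of the full Hecke algebra has an eigenform. -/
theorem exists_eigen_of_character {R : ℕ} [NeZero R]
    (θ : CuspForm.heckeAlgebra R 2 ∅ →+* ℂ) :
    ∃ f : CuspForm (Gamma0 R) 2, f ≠ 0 ∧
      ∀ t : CuspForm.heckeAlgebra R 2 ∅, t.1 f = θ t • f := by
  obtain ⟨f, hf⟩ := IntegralStructure.exists_cuspForm_of_functional θ.toIntAlgHom.toLinearMap
  refine ⟨f, fun h0 => ?_, fun t => ?_⟩
  · have h1 := hf 1
    rw [h0, map_zero] at h1
    exact zero_ne_one ((h1.trans (map_one θ) : (0 : ℂ) = 1))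
  · refine IntegralStructure.heckePairing_injective (LinearMap.ext fun s => ?_)
    rw [map_smul, LinearMap.smul_apply, smul_eq_mul]
    have h2 : IntegralStructure.heckePairing R (t.1 f) s =
        IntegralStructure.heckePairing R f (s * t) := rfl
    rw [h2, hf, hf]
    exact (map_mul θ s t).trans (mul_comm _ _)

variable {M R : ℕ} [NeZero M] [NeZero R]

/-- An element of the Hecke algebra away from `M` restricts along the inclusion of level `R`. -/
theorem exists_restrict (hR : R ∣ M) (t : CuspForm.heckeAlgebra M 2 (levelPrimes M)) :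
    ∃ t' : CuspForm.heckeAlgebra R 2 (levelPrimes M), ∀ f : CuspForm (Gamma0 R) 2,
      t.1 (Newforms.levelIncl hR f) = Newforms.levelIncl hR (t'.1 f) := by
  obtain ⟨t, ht⟩ := t
  induction ht using Algebra.adjoin_induction with
  | mem x hx =>
    rcases hx with ⟨ℓ, hℓ, hℓM, hℓS, rfl⟩ | ⟨q, hqM, -, hqS, rfl⟩
    · refine ⟨CuspForm.heckeAlgebra.T hℓ (fun h => hℓM (h.trans hR)) hℓS, fun f => ?_⟩
      show CuspForm.heckeTLin 2 hℓ hℓM _ =
        Newforms.levelIncl hR (CuspForm.heckeTLin 2 hℓ (fun h => hℓM (h.trans hR)) f)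
      rw [← Newforms.hOp_eq_heckeTLin hℓ, ← Newforms.hOp_eq_heckeTLin hℓ]
      exact Newforms.hOp_levelIncl hℓ hR
        ⟨fun h => absurd h hℓM, fun h => h.trans hR⟩ f
    · exact absurd hqM hqS
  | algebraMap r =>
    refine ⟨algebraMap ℤ _ r, fun f => ?_⟩
    simp only [Subalgebra.coe_algebraMap, Module.algebraMap_end_apply, map_zsmul]
  | add x y _ _ hx hy =>
    obtain ⟨a, ha⟩ := hx
    obtain ⟨b, hb⟩ := hy
    exact ⟨a + b, fun f => by
      rw [Subalgebra.coe_add, LinearMap.add_apply, LinearMap.add_apply, map_add, ha, hb]⟩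
  | mul x y _ _ hx hy =>
    obtain ⟨a, ha⟩ := hx
    obtain ⟨b, hb⟩ := hy
    exact ⟨a * b, fun f => by
      rw [Subalgebra.coe_mul, Module.End.mul_apply, Module.End.mul_apply, hb, ha]⟩

/-- For a newform `g` of level `M` and a proper divisor `R` of `M` some Hecke operator away from
`M` kills the forms coming from level `R` and does not kill `g`. -/
theorem exists_killsOld_ne_zero {g : CuspForm (Gamma0 M) 2} (hg : g.IsNewform) (hR : R ∣ M)
    (hne : R ≠ M) :
    ∃ t : CuspForm.heckeAlgebra M 2 (levelPrimes M),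
      (∀ f : CuspForm (Gamma0 R) 2, t.1 (Newforms.levelIncl hR f) = 0) ∧
        ConductorLevel.eigenChar hg.1 (levelPrimes M) t ≠ 0 := by
  classical
  by_contra! hall
  have hinj : Function.Injective (Newforms.levelIncl (k := 2) hR) :=
    Newforms.levelRaise_injective (M := R) (d := 1) (by rwa [one_mul])
  choose res hres using exists_restrict (M := M) (R := R) hR
  have huniq : ∀ t (t' : CuspForm.heckeAlgebra R 2 (levelPrimes M)),
      (∀ f, t.1 (Newforms.levelIncl hR f) = Newforms.levelIncl hR (t'.1 f)) → res t = t' :=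
    fun t t' h => Subtype.ext (LinearMap.ext fun f => hinj ((hres t f).symm.trans (h f)))
  let r : CuspForm.heckeAlgebra M 2 (levelPrimes M) →+*
      CuspForm.heckeAlgebra R 2 (levelPrimes M) :=
    { toFun := res
      map_one' := huniq _ _ fun f => rfl
      map_mul' := fun a b => huniq _ _ fun f => by
        rw [Subalgebra.coe_mul, Subalgebra.coe_mul, Module.End.mul_apply, Module.End.mul_apply,
          hres b, hres a]
      map_zero' := huniq _ _ fun f => by simp
      map_add' := fun a b => huniq _ _ fun f => by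
        rw [Subalgebra.coe_add, Subalgebra.coe_add, LinearMap.add_apply, LinearMap.add_apply,
          map_add, hres b, hres a] }
  have hsurj : Function.Surjective r := by
    rintro ⟨x, hx⟩
    induction hx using Algebra.adjoin_induction with
    | mem y hy =>
      rcases hy with ⟨ℓ, hℓ, hℓR, hℓS, rfl⟩ | ⟨q, hqR, -, hqS, rfl⟩
      · refine ⟨CuspForm.heckeAlgebra.T hℓ hℓS hℓS, huniq _ _ fun f => ?_⟩
        show (CuspForm.heckeTLin 2 hℓ hℓS) _ = _
        rw [← Newforms.hOp_eq_heckeTLin hℓ, Newforms.hOp_levelIncl hℓ hR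
          ⟨fun h => absurd h hℓS, fun h => h.trans hR⟩, Newforms.hOp_eq_heckeTLin hℓ hℓR]
      · exact absurd (hqR.trans hR) hqS
    | algebraMap z => exact ⟨(z : CuspForm.heckeAlgebra M 2 (levelPrimes M)), by
        rw [map_intCast]; exact Subtype.ext (by simp)⟩
    | add y z _ _ hy hz =>
      obtain ⟨a, ha⟩ := hy
      obtain ⟨b, hb⟩ := hz
      exact ⟨a + b, by rw [map_add, ha, hb]; rfl⟩
    | mul y z _ _ hy hz =>
      obtain ⟨a, ha⟩ := hy
      obtain ⟨b, hb⟩ := hz
      exact ⟨a * b, by rw [map_mul, ha, hb]; rfl⟩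
  let χ := ConductorLevel.eigenChar hg.1 (levelPrimes M)
  have hker : ∀ t, r t = 0 → χ t = 0 := fun t ht => hall t fun f => by
    rw [hres t f]
    show Newforms.levelIncl hR ((r t).1 f) = 0
    rw [ht]
    simp
  let χR : CuspForm.heckeAlgebra R 2 (levelPrimes M) →+* ℂ :=
    RingHom.liftOfSurjective r hsurj ⟨χ, hker⟩
  obtain ⟨θ, hθ⟩ := GaloisReps.exists_extend_character (levelPrimes M) χR
  obtain ⟨f, hf0, hf⟩ := exists_eigen_of_character θ
  refine hf0 (Newforms.eq_zero_of_eigen_at_lower_level hg hR hne fun ℓ hℓ hℓM => ?_)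
  have hℓR : ¬ ℓ ∣ R := fun h => hℓM (h.trans hR)
  have e : r (CuspForm.heckeAlgebra.T hℓ hℓM hℓM) = CuspForm.heckeAlgebra.T hℓ hℓR hℓM :=
    huniq _ _ fun f => by
      show (CuspForm.heckeTLin 2 hℓ hℓM) _ = _
      rw [← Newforms.hOp_eq_heckeTLin hℓ, Newforms.hOp_levelIncl hℓ hR
        ⟨fun h => absurd h hℓM, fun h => h.trans hR⟩, Newforms.hOp_eq_heckeTLin hℓ hℓR]
      rfl
  have hc : χR (r (CuspForm.heckeAlgebra.T hℓ hℓM hℓM)) = qCoeff g ℓ :=
    (RingHom.liftOfRightInverse_comp_apply _ _ _ ⟨χ, hker⟩ _).trans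
      (ConductorLevel.eigenChar_T hg.1 hℓ hℓM hℓM)
  rw [e, ← hθ, GaloisReps.toFull_T hℓ hℓR hℓM] at hc
  exact (hf (HeckeDuality.heckeOp R 2 ℓ hℓ)).trans (by rw [hc])

end Fermat.Agent.NewformLocal
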