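import Fermat.Agent.NewformLocal.Toric.Assembly
import Fermat.Agent.GaloisReps.OfInjective
import Fermat.Agent.EichlerShimura.InjectiveProof
import Fermat.Agent.RT.Glue.Points
import Fermat.Agent.RT.Lift.Bound
import Fermat.Agent.Arith.Chebotarev.Main
import Fermat.Agent.OrdinaryAtP.Restrict
import Fermat.Agent.NewformLocal.Oldness

/-!
# A system which is new at an exactly dividing prime does not occur at a level prime to it

If a newform `g` of level `M`, `q ∥ M`, and an eigenform `h` of level prime to `q` had the same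
eigenvalues almost everywhere, their representations at an auxiliary prime would have the same
traces, so that `a_q(h) ^ 2 = (q + 1) ^ 2`.
-/

set_option autoImplicit false

noncomputable section

open CongruenceSubgroup ModularFormClass IsLocalRing Module
open Fermat.Agent.GaloisReps

namespace Fermat.Agent.NewformLocal

/-- Characteristic polynomials agreeing at almost all Frobenius elements have equal traces. -/
theorem trace_eq_of_charpoly_frobenius {O : Type} [CommRing O] [IsDomain O]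
    [IsDiscreteValuationRing O] (ρ₁ ρ₂ : GaloisRepAdic O) (T : Finset ℕ)
    (h : ∀ ℓ : ℕ, ℓ.Prime → ℓ ∉ T → ∀ A : ValuationSubring (AlgebraicClosure ℚ),
      A.LiesOverPrime ℓ → ∀ σ : AbsGal, A.IsFrobeniusAt σ ℓ →
        LinearMap.charpoly (ρ₁.ρ σ) = LinearMap.charpoly (ρ₂.ρ σ)) (g : AbsGal) :
    LinearMap.trace O ρ₁.V (ρ₁.ρ g) = LinearMap.trace O ρ₂.V (ρ₂.ρ g) := by
  refine sub_eq_zero.mp ((Submodule.mem_bot O).mp ?_)
  rw [← Ideal.iInf_pow_eq_bot_of_isDomain (maximalIdeal O) (maximalIdeal.isMaximal O).ne_top,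
    Submodule.mem_iInf]
  intro n
  obtain ⟨L₁, hL₁, h₁⟩ := ρ₁.isAdicContinuous n
  obtain ⟨L₂, hL₂, h₂⟩ := ρ₂.isAdicContinuous n
  set L := IntermediateField.normalClosure ℚ (L₁ ⊔ L₂ : IntermediateField ℚ (AlgebraicClosure ℚ))
    (AlgebraicClosure ℚ) with hL
  have : Normal ℚ L := normalClosure.normal ℚ _ _
  have : IsGalois ℚ L := ⟨⟩
  obtain ⟨ℓ, hℓ, hℓT, A, hA, σ, hσ, he⟩ := Arith.Chebotarev.exists_frobenius_restrict_eq L g T
  have hfix : ∀ x ∈ L, (σ⁻¹ * g) x = x := by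
    intro x hx
    have h1 : ((AlgEquiv.restrictNormalHom L (σ⁻¹ * g)) ⟨x, hx⟩ : L) = ⟨x, hx⟩ := by
      rw [map_mul, map_inv, he, inv_mul_cancel, AlgEquiv.one_apply]
    exact (AlgEquiv.restrictNormal_commutes (σ⁻¹ * g) L ⟨x, hx⟩).symm.trans (congrArg Subtype.val h1)
  have key : ∀ (ρ : GaloisRepAdic O), (∀ v, ρ.ρ (σ⁻¹ * g) v - v ∈
      maximalIdeal O ^ n • (⊤ : Submodule O ρ.V)) →
      LinearMap.trace O ρ.V (ρ.ρ g) - LinearMap.trace O ρ.V (ρ.ρ σ) ∈ maximalIdeal O ^ n := by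
    intro ρ hρ
    rw [← map_sub]
    refine trace_mem_of_forall_mem _ _ fun v => ?_
    have hv : (ρ.ρ g - ρ.ρ σ) v = ρ.ρ σ (ρ.ρ (σ⁻¹ * g) v - v) := by
      rw [map_sub, ← Module.End.mul_apply, ← map_mul, mul_inv_cancel_left, LinearMap.sub_apply]
    rw [hv]
    refine Submodule.smul_induction_on (p := fun y => ρ.ρ σ y ∈ _) (hρ v)
      (fun a ha w _ => by rw [map_smul]; exact Submodule.smul_mem_smul ha Submodule.mem_top)
      (fun y y' hy hy' => by rw [map_add]; exact add_mem hy hy')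
  have k₁ := key ρ₁ (h₁ _ fun x hx => hfix x
    (IntermediateField.le_normalClosure _ ((le_sup_left : L₁ ≤ L₁ ⊔ L₂) hx)))
  have k₂ := key ρ₂ (h₂ _ fun x hx => hfix x
    (IntermediateField.le_normalClosure _ ((le_sup_right : L₂ ≤ L₁ ⊔ L₂) hx)))
  have htr : LinearMap.trace O ρ₁.V (ρ₁.ρ σ) = LinearMap.trace O ρ₂.V (ρ₂.ρ σ) := by
    let b₁ := Module.finBasisOfFinrankEq O ρ₁.V ρ₁.finrank_eq
    let b₂ := Module.finBasisOfFinrankEq O ρ₂.V ρ₂.finrank_eq
    rw [LinearMap.trace_eq_matrix_trace O b₁, LinearMap.trace_eq_matrix_trace O b₂,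
      Matrix.trace_eq_neg_charpoly_coeff, Matrix.trace_eq_neg_charpoly_coeff,
      LinearMap.charpoly_toMatrix, LinearMap.charpoly_toMatrix, h ℓ hℓ hℓT A hA σ hσ]
  rw [htr] at k₁
  have := sub_mem k₁ k₂
  rwa [sub_sub_sub_cancel_right] at this

set_option maxHeartbeats 1000000 in
/-- **A system new at `q ∥ M` does not occur at a level prime to `q`.** -/
theorem exists_qCoeff_ne_of_not_dvd_level {M R q : ℕ} [NeZero M] [NeZero R] (hq : q.Prime)
    (hqM : q ∣ M) (hq2 : ¬ q ^ 2 ∣ M) (hqR : ¬ q ∣ R) {g : CuspForm (Gamma0 M) 2}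
    (hg : g.IsNewform) {h : CuspForm (Gamma0 R) 2} (hh : h.IsNormalizedEigenform) (T : Finset ℕ) :
    ∃ ℓ : ℕ, ℓ.Prime ∧ ℓ ∉ T ∧ qCoeff g ℓ ≠ qCoeff h ℓ := by
  classical
  by_contra! hall
  obtain ⟨lam, hlam, hlamq⟩ : ∃ lam : ℕ, lam.Prime ∧ lam ≠ q := by
    by_cases h2 : q = 2
    · exact ⟨3, Nat.prime_three, by omega⟩
    · exact ⟨2, Nat.prime_two, Ne.symm h2⟩
  have := Fact.mk hlam
  have hD : ∀ (N p : ℕ) [NeZero N] [Fact p.Prime], CongruenceProperty N p :=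
    congruenceProperty_all EichlerShimura.injectiveOnTorsion_all
  set S : Finset ℕ := insert lam (M.primeFactors ∪ R.primeFactors ∪ T) with hS
  have hMS : ∀ v : ℕ, v.Prime → v ∣ M → v ∈ S := fun v hv hvM => Finset.mem_insert_of_mem
    (Finset.mem_union_left _ (Finset.mem_union_left _
      (Nat.mem_primeFactors.mpr ⟨hv, hvM, NeZero.ne M⟩)))
  set χg := ConductorLevel.eigenChar hg.1 (↑S : Set ℕ)
  set χh := ConductorLevel.eigenChar hh (∅ : Set ℕ)
  have : Module.Finite ℤ (CuspForm.heckeAlgebra M 2 (↑S : Set ℕ)) :=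
    IntegralStructure.heckeAlgebra_finite M 2 _
  have : Module.Finite ℤ (CuspForm.heckeAlgebra R 2 (∅ : Set ℕ)) :=
    IntegralStructure.heckeAlgebra_finite R 2 _
  set B : Subalgebra ℤ ℂ := χg.toIntAlgHom.range ⊔ χh.toIntAlgHom.range with hB
  have : Module.Finite ℤ χg.toIntAlgHom.range :=
    Module.Finite.of_surjective χg.toIntAlgHom.rangeRestrict.toLinearMap
      χg.toIntAlgHom.rangeRestrict_surjective
  have : Module.Finite ℤ χh.toIntAlgHom.range :=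
    Module.Finite.of_surjective χh.toIntAlgHom.rangeRestrict.toLinearMap
      χh.toIntAlgHom.rangeRestrict_surjective
  have : Module.Finite ℤ B := Subalgebra.finite_sup _ _
  have hgB : ∀ t, χg t ∈ B := fun t =>
    (le_sup_left : _ ≤ χg.toIntAlgHom.range ⊔ _) ⟨t, rfl⟩
  have hhB : ∀ t, χh t ∈ B := fun t =>
    (le_sup_right : _ ≤ χg.toIntAlgHom.range ⊔ _) ⟨t, rfl⟩
  obtain ⟨e⟩ := RT.Glue.nonempty_ringEquiv_complex ℤ_[lam] (RingHom.id _)
  obtain ⟨O', i1, i2, i3, i4, i5, i6, i7, i8, i9, j, θB, -, hjinj, -, hθB⟩ :=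
    exists_coeffExt ℤ_[lam] (e.symm.toRingHom.comp B.val.toRingHom)
  have hθinj : ∀ {x y : B}, θB x = θB y → (x : ℂ) = y := fun {x y} hxy => by
    have h1 := congrArg j hxy
    rw [← RingHom.comp_apply j θB, ← RingHom.comp_apply j θB, hθB] at h1
    exact e.symm.injective h1
  have hlamO : (lam : O') ∈ maximalIdeal O' := by
    rw [← map_natCast (algebraMap ℤ_[lam] O') lam]
    refine map_nonunit (algebraMap ℤ_[lam] O') _ ?_
    rw [PadicInt.maximalIdeal_eq_span_p]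
    exact Ideal.mem_span_singleton_self _
  have hrange : χg.range ≤ B.toSubring := by
    rintro _ ⟨t, rfl⟩
    exact hgB t
  obtain ⟨O'', k1, k2, k3, k4, k5, k6, k7, k8, k9, hinj, ρ₁, hρ₁, htor⟩ :=
    Toric.exists_rep_of_quartic (fun N p _ _ => ⟨modelOfCongruence (hD N p),
      fun v hv hvp _ hv2 => Toric.quarticAt_modelOfCongruence _ hv hvp hv2⟩) hg lam S O' hlamO χg
      (fun ℓ hℓ hℓM hℓS => ConductorLevel.eigenChar_T hg.1 hℓ hℓM hℓS)
      (θB.comp (Subring.inclusion hrange)) (Finset.mem_insert_self _ _) hMS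
  set f : B →+* O'' := (algebraMap O' O'').comp θB
  have hlamO'' : (lam : O'') ∈ maximalIdeal O'' := by
    rw [← map_natCast (algebraMap O' O'') lam]
    exact map_nonunit (algebraMap O' O'') _ hlamO
  obtain ⟨ι⟩ := exists_padicHom O'' hlamO''
  let θ₂ : FullHecke R →+* O'' := f.comp (χh.codRestrict B.toSubring hhB)
  let D := modelOfCongruence (hD R lam)
  have hT₂ : ∀ {ℓ : ℕ} (hℓ : ℓ.Prime) (hℓR : ¬ ℓ ∣ R),
      (χh (HeckeDuality.heckeOp R 2 ℓ hℓ) : ℂ) = qCoeff h ℓ := fun hℓ hℓR => by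
    rw [HeckeDuality.heckeOp, dif_neg hℓR]
    exact ConductorLevel.eigenChar_T hh hℓ hℓR _
  have hS' : ∀ {ℓ : ℕ}, ℓ.Prime → ℓ ∉ S → ¬ ℓ ∣ M ∧ ¬ ℓ ∣ R ∧ ℓ ∉ T ∧ ¬ ℓ ∣ R * lam := by
    intro ℓ hℓ hℓS
    simp only [hS, Finset.mem_insert, Finset.mem_union, not_or] at hℓS
    have hR : ¬ ℓ ∣ R := fun h => hℓS.2.1.2 (Nat.mem_primeFactors.mpr ⟨hℓ, h, NeZero.ne R⟩)
    exact ⟨fun h => hℓS.2.1.1 (Nat.mem_primeFactors.mpr ⟨hℓ, h, NeZero.ne M⟩), hR, hℓS.2.2,
      fun h => (hℓ.dvd_mul.mp h).elim hR fun h' =>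
        hℓS.1 ((Nat.prime_dvd_prime_iff_eq hℓ hlam).mp h')⟩
  have htr := trace_eq_of_charpoly_frobenius ρ₁ (D.rep ι θ₂ hlamO'') S
    fun ℓ hℓ hℓS A hA σ hσ => by
      obtain ⟨hℓM, hℓR, hℓT, hℓRl⟩ := hS' hℓ hℓS
      refine (hρ₁ ℓ hℓ hℓM hℓS A hA σ hσ).trans ?_
      refine Eq.trans ?_
        (D.charpoly_eigenAction_frobenius ι θ₂ frobeniusDensity hlamO'' hℓ hℓRl hA hσ).symm
      refine congrArg (fun c => Polynomial.X ^ 2 - Polynomial.C c * Polynomial.X +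
        Polynomial.C (ℓ : O'')) (congrArg (algebraMap O' O'') (congrArg θB (Subtype.ext ?_)))
      show χg (CuspForm.heckeAlgebra.T hℓ hℓM hℓS) = χh (HeckeDuality.heckeOp R 2 ℓ hℓ)
      rw [hT₂ hℓ hℓR, ← hall ℓ hℓ hℓT]
      exact ConductorLevel.eigenChar_T hg.1 hℓ hℓM hℓS
  obtain ⟨A, hA⟩ := Arith.exists_liesOverPrime hq
  obtain ⟨σ, hσ⟩ := Arith.exists_isFrobeniusAt hA hq
  have hqRl : ¬ q ∣ R * lam := fun h => (hq.dvd_mul.mp h).elim hqR fun h' =>
    hlamq ((Nat.prime_dvd_prime_iff_eq hq hlam).mp h').symm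
  have h2 := D.charpoly_eigenAction_frobenius ι θ₂ frobeniusDensity hlamO'' hq hqRl hA hσ
  have hsq : f ⟨qCoeff h q, hT₂ hq hqR ▸ hhB _⟩ ^ 2 = f (((q : B) + 1)) ^ 2 := by
    have e2 : LinearMap.trace O'' _ ((D.rep ι θ₂ hlamO'').ρ σ) =
        θ₂ (HeckeDuality.heckeOp R 2 q hq) := by
      let b' := Module.finBasisOfFinrankEq O'' (D.rep ι θ₂ hlamO'').V
        (D.rep ι θ₂ hlamO'').finrank_eq
      have h2' : LinearMap.charpoly ((D.rep ι θ₂ hlamO'').ρ σ) = Polynomial.X ^ 2 -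
          Polynomial.C (θ₂ (HeckeDuality.heckeOp R 2 q hq)) * Polynomial.X +
            Polynomial.C (q : O'') := h2
      rw [LinearMap.trace_eq_matrix_trace O'' b', Matrix.trace_eq_neg_charpoly_coeff,
        LinearMap.charpoly_toMatrix, h2']
      simp [Fintype.card_fin]
    have e3 : f ⟨qCoeff h q, hT₂ hq hqR ▸ hhB _⟩ = θ₂ (HeckeDuality.heckeOp R 2 q hq) :=
      congrArg f (Subtype.ext (hT₂ hq hqR).symm)
    rw [e3, ← e2, ← htr σ, map_add, map_natCast, map_one]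
    let b := Module.finBasisOfFinrankEq O'' ρ₁.V ρ₁.finrank_eq
    rw [LinearMap.trace_eq_matrix_trace O'' b, Matrix.trace_eq_neg_charpoly_coeff,
      LinearMap.charpoly_toMatrix]
    rcases htor q hq (Ne.symm hlamq) hqM hq2 A hA σ hσ with hc | hc <;> rw [hc] <;>
      simp [Fintype.card_fin]; ring
  rw [← map_pow, ← map_pow] at hsq
  have := hθinj (hinj hsq)
  refine RT.Lift.qCoeff_sq_ne hq hqR hh ?_
  simpa using this

/-- A character not occurring at a lower level is nonzero on some operator killing that level. -/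
theorem exists_kills_of_not_occurs {N R : ℕ} [NeZero N] [NeZero R] (hR : R ∣ N) {S : Finset ℕ}
    (hNS : ∀ v : ℕ, v.Prime → v ∣ N → v ∈ S)
    (χ : CuspForm.heckeAlgebra N 2 (↑S : Set ℕ) →+* ℂ)
    (hχ : ∀ h : CuspForm (Gamma0 R) 2, h.IsNormalizedEigenform →
      ∃ (ℓ : ℕ) (hℓ : ℓ.Prime) (hℓN : ¬ ℓ ∣ N) (hℓS : ℓ ∉ (↑S : Set ℕ)),
        qCoeff h ℓ ≠ χ (CuspForm.heckeAlgebra.T hℓ hℓN hℓS)) :
    ∃ t : CuspForm.heckeAlgebra N 2 (↑S : Set ℕ),
      (∀ f : CuspForm (Gamma0 R) 2, t.1 (Newforms.levelIncl hR f) = 0) ∧ χ t ≠ 0 := by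
  classical
  by_contra! hall
  have hinj : Function.Injective (Newforms.levelIncl (k := 2) hR) :=
    Newforms.levelRaise_injective (M := R) (d := 1) (by rwa [one_mul])
  choose res hres using OrdinaryAtP.exists_restrict_away (S := S) (S' := S) hR
    (Finset.Subset.refl S) hNS
  have huniq : ∀ t (t' : CuspForm.heckeAlgebra R 2 (↑S : Set ℕ)),
      (∀ f, t.1 (Newforms.levelIncl hR f) = Newforms.levelIncl hR (t'.1 f)) → res t = t' :=
    fun t t' h => Subtype.ext (LinearMap.ext fun f => hinj ((hres t f).symm.trans (h f)))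
  let r : CuspForm.heckeAlgebra N 2 (↑S : Set ℕ) →+* CuspForm.heckeAlgebra R 2 (↑S : Set ℕ) :=
    { toFun := res
      map_one' := huniq _ _ fun f => rfl
      map_mul' := fun a b => huniq _ _ fun f => by
        rw [Subalgebra.coe_mul, Subalgebra.coe_mul, Module.End.mul_apply, Module.End.mul_apply,
          hres b, hres a]
      map_zero' := huniq _ _ fun f => by simp
      map_add' := fun a b => huniq _ _ fun f => by
        rw [Subalgebra.coe_add, Subalgebra.coe_add, LinearMap.add_apply, LinearMap.add_apply,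
          map_add, hres b, hres a] }
  have hrT : ∀ (ℓ : ℕ) (hℓ : ℓ.Prime) (hℓN : ¬ ℓ ∣ N) (hℓS : ℓ ∉ (↑S : Set ℕ)),
      r (CuspForm.heckeAlgebra.T hℓ hℓN hℓS) =
        CuspForm.heckeAlgebra.T hℓ (fun h => hℓN (h.trans hR)) hℓS := fun ℓ hℓ hℓN hℓS =>
    huniq _ _ fun f => by
      show CuspForm.heckeTLin 2 hℓ hℓN _ = _
      rw [← Newforms.hOp_eq_heckeTLin hℓ, Newforms.hOp_levelIncl hℓ hR
        ⟨fun h => absurd h hℓN, fun h => h.trans hR⟩,
        Newforms.hOp_eq_heckeTLin hℓ fun h => hℓN (h.trans hR)]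
      rfl
  have hsurj : Function.Surjective r := by
    rintro ⟨x, hx⟩
    induction hx using Algebra.adjoin_induction with
    | mem y hy =>
      rcases hy with ⟨ℓ, hℓ, hℓR, hℓS, rfl⟩ | ⟨v, hvR, hv, hvS, rfl⟩
      · exact ⟨_, hrT ℓ hℓ (fun h => hℓS (hNS ℓ hℓ h)) hℓS⟩
      · exact absurd (hNS v hv (hvR.trans hR)) hvS
    | algebraMap z => exact ⟨(z : CuspForm.heckeAlgebra N 2 (↑S : Set ℕ)), by
        rw [map_intCast]; exact Subtype.ext (by simp)⟩
    | add y z _ _ hy hz =>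
      obtain ⟨a, ha⟩ := hy
      obtain ⟨b, hb⟩ := hz
      exact ⟨a + b, by rw [map_add, ha, hb]; rfl⟩
    | mul y z _ _ hy hz =>
      obtain ⟨a, ha⟩ := hy
      obtain ⟨b, hb⟩ := hz
      exact ⟨a * b, by rw [map_mul, ha, hb]; rfl⟩
  have hker : ∀ t, r t = 0 → χ t = 0 := fun t ht => hall t fun f => by
    rw [hres t f]
    show Newforms.levelIncl hR ((r t).1 f) = 0
    rw [ht]
    simp
  obtain ⟨θ, hθ⟩ := GaloisReps.exists_extend_character (↑S : Set ℕ)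
    (RingHom.liftOfSurjective r hsurj ⟨χ, hker⟩)
  obtain ⟨f, hf0, hf⟩ := exists_eigen_of_character θ
  obtain ⟨u, hu, hucoef⟩ := Newforms.exists_eigenform_of_eigen hf0 (fun ℓ => ℓ ∉ S)
    (fun ℓ => if hℓ : ℓ.Prime then θ (HeckeDuality.heckeOp R 2 ℓ hℓ) else 0)
    (fun ℓ hℓ _ => by rw [dif_pos hℓ]; exact hf _)
  obtain ⟨ℓ, hℓ, hℓN, hℓS, hne⟩ := hχ u hu
  refine hne ?_
  rw [hucoef ℓ hℓ hℓS, dif_pos hℓ,
    ← GaloisReps.toFull_T hℓ (fun h => hℓN (h.trans hR)) hℓS, hθ, ← hrT ℓ hℓ hℓN hℓS]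
  exact RingHom.liftOfRightInverse_comp_apply _ _ _ ⟨χ, hker⟩ _

end Fermat.Agent.NewformLocal

end
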